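import Fermat.Agent.LT.T1.Spec
import Fermat.Agent.LT.H767.AdeleDiscrete
import Fermat.Agent.LT.H767.AdeleCocompact

/-!
# Row LT, tower T1 — helper767: `LeafAdeleCocompact K` and `AdeleLatticeC K`, verbatim

OFF-MAIN.  For every number field `K` (`T1/Spec.lean` of helper54, `A0.lean` of helper556):

* `leafAdeleCocompact767 K : Fermat.Agent.LT.T1.LeafAdeleCocompact K` (leaf T1.03, unconditional
  proof: the hypothesis `LocCompC K` is not used);
* `adeleLatticeC767 K : Fermat.Agent.LT.T1.AdeleLatticeC K`: `K` is discrete, closed and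
  cocompact in `𝔸_K`.
-/

set_option autoImplicit false

open NumberField IsDedekindDomain IsDedekindDomain.HeightOneSpectrum

noncomputable section

namespace Fermat.Agent.LT.H767

open Fermat.Agent.LT.H556.A0 Fermat.Agent.LT.T1

variable (K : Type) [Field K] [NumberField K]

/-- The adele ring is Hausdorff. -/
theorem t2Space_adeleRing767 : T2Space (AdeleRing (𝓞 K) K) := by
  have h1 : T2Space (InfiniteAdeleRing K) := by
    change T2Space ((v : InfinitePlace K) → v.Completion)
    infer_instance
  have h2 : T2Space (FiniteAdeleRing (𝓞 K) K) := by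
    change T2Space (RestrictedProduct (fun v : HeightOneSpectrum (𝓞 K) => v.adicCompletion K)
      (fun v : HeightOneSpectrum (𝓞 K) => (v.adicCompletionIntegers K : Set (v.adicCompletion K)))
      Filter.cofinite)
    infer_instance
  change T2Space (InfiniteAdeleRing K × FiniteAdeleRing (𝓞 K) K)
  infer_instance

/-- The subgroup `princ K` of `T1/Spec.lean` is Mathlib's `principalSubgroup`. -/
theorem princ_eq_principalSubgroup767 :
    princ K = AdeleRing.principalSubgroup (𝓞 K) K := by
  ext x
  constructor
  · rintro ⟨k, rfl⟩; exact ⟨k, rfl⟩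
  · rintro ⟨k, rfl⟩; exact ⟨k, rfl⟩

/-- `princ K` is discrete. -/
theorem discreteTopology_princ767 : DiscreteTopology (princ K) := by
  rw [princ_eq_principalSubgroup767]
  exact discreteTopology_principal K

/-- `princ K` is closed. -/
theorem isClosed_princ767 : IsClosed (princ K : Set (Adl K)) := by
  have := t2Space_adeleRing767 K
  have := discreteTopology_princ767 K
  exact AddSubgroup.isClosed_of_discrete

/-- **Leaf T1.03** (`T1.LeafAdeleCocompact`, verbatim): `𝔸_K = K + (compact)`. -/
theorem leafAdeleCocompact767 : LeafAdeleCocompact K :=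
  fun _ => ⟨adeleBox K, isCompact_adeleBox K, fun x => exists_sub_mem_adeleBox K x⟩

/-- **`K` is a lattice in `𝔸_K`** (`T1.AdeleLatticeC`, verbatim). -/
theorem adeleLatticeC767 : AdeleLatticeC K :=
  ⟨discreteTopology_princ767 K, isClosed_princ767 K, adeleBox K, isCompact_adeleBox K,
    fun x => exists_sub_mem_adeleBox K x⟩

end Fermat.Agent.LT.H767
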